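import Fermat.Agent.EC.FrobTrace.Main

/-!
# Frobenius is not a scalar on the Tate module

At a prime `ℓ` of good reduction a Frobenius element cannot act as a scalar on the `p ^ j`-torsion
for every `j`: the degree bound for `φ - r` and the Hasse bound forbid it.
-/

set_option autoImplicit false

open scoped WeierstrassCurve.Affine
open WeierstrassCurve

namespace Fermat.Agent.EC.Rep

open FrobTrace

/-- For a prime `d` and `a ^ 2 ≤ 4 * d` the polynomial `x ^ 2 - a x + d` has no integral root. -/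
theorem quadratic_ne_zero_of_prime {a : ℤ} {d : ℕ} (hd : d.Prime) (h : a ^ 2 ≤ 4 * d) (r : ℤ) :
    r ^ 2 - a * r + d ≠ 0 := by
  intro h0
  have h1 : (2 * r - a) ^ 2 = 0 := le_antisymm (by nlinarith) (sq_nonneg _)
  have h2 : 2 * r - a = 0 := pow_eq_zero_iff two_ne_zero |>.mp h1
  have h3 : r ^ 2 = (d : ℤ) := by rw [show a = 2 * r by linarith] at h0; linarith
  have h4 : r.natAbs ^ 2 = d := by
    have : ((r.natAbs ^ 2 : ℕ) : ℤ) = (d : ℤ) := by push_cast; rw [sq_abs, h3]
    exact_mod_cast this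
  exact Nat.Prime.not_prime_pow le_rfl (h4 ▸ hd)

variable {A : ValuationSubring (AlgebraicClosure ℚ)} {ℓ : ℕ}
  {σ : AlgebraicClosure ℚ ≃ₐ[ℚ] AlgebraicClosure ℚ}

/-- A Frobenius element at a good prime `ℓ ≠ p` is not a scalar on some `p ^ j`-torsion. -/
theorem frobenius_exists_level_not_scalar (W : WeierstrassCurve ℤ) {p : ℕ} (hℓ : ℓ.Prime)
    (hgood : W.IsGoodPrimeFor ℓ) (hA : A.LiesOverPrime ℓ) (hσ : A.IsFrobeniusAt σ ℓ)
    (hp : p.Prime) (hne : ℓ ≠ p) :
    ∃ j : ℕ, ¬ ∃ r : ℤ, ∀ P : ((W.map (Int.castRingHom ℚ))⁄(AlgebraicClosure ℚ)).Point,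
      ((p : ℤ) ^ j) • P = 0 → σ • P = r • P := by
  classical
  have := Fact.mk hℓ
  set R := IsLocalRing.ResidueField A
  have : CharP R ℓ := Arith.residueField_charP hA hℓ
  let _ : Algebra (ZMod ℓ) R := ZMod.algebra R ℓ
  have : IsAlgClosed R := Arith.residueField_isAlgClosed A
  have : Algebra.IsAlgebraic (ZMod ℓ) R :=
    ⟨fun z => (Arith.isIntegral_residue hA hℓ z).isAlgebraic⟩
  have : (W.reductionMod ℓ).IsElliptic := ⟨by
    rw [isUnit_iff_ne_zero, WeierstrassCurve.reductionMod, WeierstrassCurve.map_Δ]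
    exact fun h => hgood ((ZMod.intCast_zmod_eq_zero_iff_dvd _ _).mp h)⟩
  set V := W.reductionMod ℓ with hVdef
  have hndvd : ¬ ℓ ∣ p := fun h => hne ((Nat.prime_dvd_prime_iff_eq hℓ hp).mp h)
  have hpR : ∀ j, ((p ^ j : ℕ) : R) ≠ 0 := fun j => by
    push_cast
    exact pow_ne_zero _ fun h0 => hndvd ((CharP.cast_eq_zero_iff R ℓ p).mp h0)
  have hnz : ∀ r : ℤ, r ^ 2 - frobTraceInt V * r + (Fintype.card (ZMod ℓ) : ℤ) ≠ 0 := fun r => by
    have h := frobTraceInt_sq_le V
    rw [ZMod.card] at h ⊢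
    exact quadratic_ne_zero_of_prime hℓ h r
  obtain ⟨j, hj⟩ := exists_level_not_scalar_mod (frobPoint V R) hp
    (fun r hr s hs => card_kernel_le V r hr s hs) (fun j => by
      have : Finite (Submodule.torsionBy ℤ (V⁄R).Point (p ^ j : ℕ)) :=
        Torsion.finite_torsionBy (V⁄R) (hpR j)
      have hfin := Set.toFinite (Submodule.torsionBy ℤ (V⁄R).Point (p ^ j : ℕ) : Set (V⁄R).Point)
      refine ⟨hfin.toFinset, fun P hP => ?_, ?_⟩
      · rw [Set.Finite.mem_toFinset, SetLike.mem_coe, Submodule.mem_torsionBy_iff] at hP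
        push_cast at hP
        exact hP
      · rw [← Set.ncard_eq_toFinset_card _ hfin, ← Nat.card_coe_set_eq]
        exact Torsion.natCard_torsionBy (V⁄R) (hpR j))
  refine ⟨j + 1, fun ⟨r, hr⟩ => hj r (fun s _ => hnz s) fun P hP => ?_⟩
  generalize j + 1 = j at hr hP
  -- transport along reduction
  have hV : (V⁄R) = (W⁄R) := by
    show (W.map _).map _ = W.map _
    rw [WeierstrassCurve.map_map]
    exact congr_arg W.map (RingHom.ext_int _ _)
  have key : ∀ P : (W⁄R).Point, (p : ℤ) ^ j • P = 0 →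
      Affine.Point.map (W' := W) (Reduction.residualFrobenius hA hℓ) P = r • P := by
    intro P hP
    obtain ⟨x, hx, rfl⟩ := exists_redFun_eq hℓ hgood hA (n := p ^ j)
      (fun h' => hndvd (hℓ.dvd_of_dvd_pow h')) P (by rw [← natCast_zsmul]; push_cast; exact hP)
    refine (Reduction.redFun_frobenius W hA hℓ hσ x).symm.trans ?_
    rw [hr x (by rw [← natCast_zsmul] at hx; push_cast at hx; exact hx)]
    exact map_zsmul (redHom hℓ hgood hA) r x
  have hgen : ∀ (U : WeierstrassCurve.Affine R), (W⁄R).toAffine = U →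
      ∀ F : U.Point →+ U.Point, (∀ (x y : R) (hxy : U.Nonsingular x y), ∃ h',
        F (.some x y hxy) = .some (x ^ ℓ) (y ^ ℓ) h') →
      ∀ P : U.Point, (p : ℤ) ^ j • P = 0 → F P = r • P := by
    rintro U rfl F hF P hP
    rw [← key P hP]
    rcases P with _ | ⟨x, y, hxy⟩
    · rw [← Affine.Point.zero_def, map_zero, map_zero]
    · obtain ⟨h', e⟩ := hF x y hxy
      rw [e, Affine.Point.map_some]
      rfl
  refine hgen _ hV.symm _ (fun x y hxy => ?_) P hP
  refine ⟨by
    have := ((V.toAffine).baseChange_nonsingular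
      (f := FiniteField.frobeniusAlgHom (ZMod ℓ) R) (RingHom.injective _) x y).mpr hxy
    simpa using this, ?_⟩
  rw [frobPoint, Affine.Point.map_some]
  simp

end Fermat.Agent.EC.Rep
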